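import Fermat.Agent.CB5.Rel
import Fermat.Agent.LG.FrobRed
import Fermat.Agent.ModFun.VDegree
import Fermat.Agent.CA.Int

/-!
The Kronecker congruence for the modular equation of `t`.
-/

set_option autoImplicit false
set_option linter.unusedSectionVars false

open Polynomial
open Fermat.Agent.ModFun Fermat.Agent.LG
open Fermat.Agent.ESCore (HauptFn)
open ModularCurve (qExpand)

noncomputable section

universe u

namespace Fermat.Agent.CB5

section Abstract

variable {F : Type*} [CommRing F] {q : ℕ}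

theorem expand_indep (hq : 0 < q) {e : ℕ → F[X]}
    (h : ∑ r ∈ Finset.range q, expand F q (e r) * X ^ r = 0) : ∀ r < q, e r = 0 := by
  intro r hr
  ext m
  rw [coeff_zero]
  have h1 := congrArg (fun P : F[X] => P.coeff (q * m + r)) h
  simp only [finsetSum_coeff, coeff_zero] at h1
  rw [Finset.sum_eq_single_of_mem r (Finset.mem_range.mpr hr)] at h1
  · rw [coeff_mul_X_pow, mul_comm, coeff_expand_mul hq] at h1
    exact h1
  · intro i hi hne
    rw [coeff_mul_X_pow', coeff_expand hq]
    split_ifs with h2 h3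
    · exfalso
      apply hne
      have hi' := Finset.mem_range.mp hi
      have h4 : (q * m + r) % q = i % q := by
        have := (Nat.modEq_iff_dvd' h2).mpr h3
        exact this.symm
      rw [Nat.mul_add_mod, Nat.mod_eq_of_lt hr, Nat.mod_eq_of_lt hi'] at h4
      exact h4.symm
    · rfl
    · rfl

theorem kronecker [IsDomain F] (hq : 2 ≤ q) {d : ℕ → F[X]} (htop : d (q + 1) = 1)
    (hA : ∑ i ∈ Finset.range (q + 2), d i * (X ^ q) ^ i = 0)
    (hB : ∑ i ∈ Finset.range (q + 2), expand F q (d i) * X ^ i = 0) :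
    d 0 = X ^ (q + 1) ∧ d 1 = -X ∧ d q = -X ^ q ∧ ∀ i, 1 < i → i < q → d i = 0 := by
  obtain ⟨n, rfl⟩ : ∃ n, q = n + 2 := ⟨q - 2, by omega⟩
  have hB' : ∑ r ∈ Finset.range (n + 2), expand F (n + 2) (d r + ((if r = 0 then X * d (n + 2)
      else 0) + (if r = 1 then X else 0))) * X ^ r = 0 := by
    refine Eq.trans ?_ hB
    rw [Finset.sum_range_succ _ (n + 3), Finset.sum_range_succ _ (n + 2), htop]
    simp only [map_add, add_mul, Finset.sum_add_distrib]
    rw [add_assoc]
    congr 1
    congr 1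
    · rw [Finset.sum_eq_single_of_mem 0 (by simp)]
      · rw [if_pos rfl, map_mul, expand_X]
        ring
      · intro i _ hi
        rw [if_neg hi, map_zero, zero_mul]
    · rw [Finset.sum_eq_single_of_mem 1 (by simp)]
      · rw [if_pos rfl, expand_X, map_one]
        ring
      · intro i _ hi
        rw [if_neg hi, map_zero, zero_mul]
  have h1 := expand_indep (by omega) hB'
  have h00 := h1 0 (by omega)
  have h11 := h1 1 (by omega)
  simp only [if_true, one_ne_zero, if_false, zero_ne_one, add_zero, zero_add] at h00 h11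
  have hi : ∀ i, 1 < i → i < n + 2 → d i = 0 := by
    intro i hi1 hi2
    have := h1 i hi2
    rwa [if_neg (by omega), if_neg (by omega), add_zero, add_zero] at this
  have e0 : d 0 = - (X * d (n + 2)) := eq_neg_of_add_eq_zero_left h00
  have e1 : d 1 = - X := eq_neg_of_add_eq_zero_left h11
  have hq' : d (n + 2) = -X ^ (n + 2) := by
    rw [Finset.sum_range_succ, Finset.sum_range_succ, Finset.sum_range_succ',
      Finset.sum_range_succ', Finset.sum_eq_zero (fun i hi' => by
        have := Finset.mem_range.mp hi'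
        rw [hi (i + 1 + 1) (by omega) (by omega), zero_mul]), htop] at hA
    simp only [zero_add] at hA
    rw [e0, e1] at hA
    have h2 : (X ^ ((n + 2) * (n + 2)) - X : F[X]) * (d (n + 2) + X ^ (n + 2)) = 0 := by
      rw [← hA]
      ring
    rcases mul_eq_zero.mp h2 with h3 | h3
    · exfalso
      have h4 := congrArg (fun P : F[X] => P.coeff 1) h3
      simp only [coeff_sub, coeff_X_pow, coeff_X_one, coeff_zero] at h4
      rw [if_neg (by nlinarith)] at h4
      simp at h4
    · exact eq_neg_of_add_eq_zero_left h3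
  refine ⟨?_, e1, hq', hi⟩
  rw [e0, hq']
  ring

end Abstract

section Series

variable {p : ℕ} [Fact p.Prime] {κ : ℤ} {F : Type*} [Field F]

theorem coeff_eval₂_tS' (r : Polynomial F) (n : ℕ) (hn : r.natDegree ≤ n) :
    (r.eval₂ HahnSeries.C (tS F p κ)).coeff (-(n : ℤ)) = r.coeff n := by
  have h0 : r.eval₂ HahnSeries.C (tS F p κ) =
      ∑ i ∈ Finset.range (n + 1), HahnSeries.C (r.coeff i) * tS F p κ ^ i :=
    Polynomial.eval₂_eq_sum_range' _ (Nat.lt_succ_of_le hn) _
  rw [h0, HahnSeries.coeff_sum, Finset.sum_eq_single_of_mem n (by simp)]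
  · rw [HahnSeries.C_mul_eq_smul, HahnSeries.coeff_smul, (coeff_tS_pow n).2, smul_eq_mul, mul_one]
  · intro m hm hne
    have : m < n := by
      have := Finset.mem_range.mp hm
      omega
    rw [HahnSeries.C_mul_eq_smul, HahnSeries.coeff_smul, (coeff_tS_pow m).1 _ (by omega),
      smul_zero]

theorem eq_zero_of_eval₂_tS {r : Polynomial F} (h : r.eval₂ HahnSeries.C (tS F p κ) = 0) :
    r = 0 := by
  rw [← leadingCoeff_eq_zero, leadingCoeff, ← coeff_eval₂_tS' (p := p) (κ := κ) r _ le_rfl, h,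
    HahnSeries.coeff_zero]

theorem coeffMap_tS {R S : Type*} [CommRing R] [CommRing S] (f : R →+* S) :
    ModularCurve.coeffMap f (tS R p κ) = tS S p κ := by
  ext n
  simp only [tS, ModularCurve.coeffMap_coeff]
  exact RingHom.congr_fun (RingHom.ext_int (f.comp (Int.castRingHom R)) (Int.castRingHom S)) _

theorem qExpand_tS_eq_pow (q : ℕ) [NeZero q] [Fact q.Prime] :
    qExpand (ZMod q) q (tS (ZMod q) p κ) = tS (ZMod q) p κ ^ q := by
  rw [pow_eq_qExpand q, ZMod.frobenius_zmod, coeffMap_tS]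

theorem mrel_iff {q : ℕ} {c : ℕ → ℤ[X]} {E : Type*} [CommRing E] {x y : E} : MRel q c x y ↔
    ∑ i ∈ Finset.range (q + 2), (c i).eval₂ (Int.castRingHom E) y * x ^ i = 0 := by
  rw [MRel]
  simp only [aeval_int]

theorem MRel_map {q : ℕ} {c : ℕ → ℤ[X]} {E E' : Type*} [CommRing E] [CommRing E'] (f : E →+* E')
    {x y : E} (h : MRel q c x y) : MRel q c (f x) (f y) := by
  rw [mrel_iff] at h ⊢
  have h1 := congrArg f h
  rw [map_zero, map_sum] at h1
  rw [← h1]
  refine Finset.sum_congr rfl fun i _ => ?_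
  rw [map_mul, map_pow, Polynomial.hom_eval₂]
  congr 2
  exact RingHom.ext_int _ _

end Series

/-- **The modular equation of `t`, with the Kronecker congruence and its symmetries.** -/
theorem exists_kshape {p : ℕ} [Fact p.Prime] {κ : ℤ} (H : HauptFn p κ) {q : ℕ} [NeZero q]
    (hq : q.Prime) (hqp : ¬ q ∣ p) : ∃ c, CA.KShape q c ∧
      ∀ {K : Type u} [Field K] (_ : K →+* ℂ),
        MRel q c (qExpand K q (tS K p κ)) (tS K p κ) ∧
        MRel q c (tS K p κ) (qExpand K q (tS K p κ)) ∧
        MRel q c (((κ ^ 2 * (p : ℤ) ^ 4 : ℤ) : LaurentSeries K) / qExpand K q (tS K p κ))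
          (((κ ^ 2 * (p : ℤ) ^ 4 : ℤ) : LaurentSeries K) / tS K p κ) ∧
        MRel q c (((κ ^ 2 * (p : ℤ) ^ 4 : ℤ) : LaurentSeries K) / tS K p κ)
          (((κ ^ 2 * (p : ℤ) ^ 4 : ℤ) : LaurentSeries K) / qExpand K q (tS K p κ)) := by
  obtain ⟨c, hc, h1, h2, h3⟩ := exists_modrel.{u} H hq hqp
  refine ⟨c, ?_, fun ι => h3 ι⟩
  have : Fact q.Prime := ⟨hq⟩
  -- reduction
  set φ : ℤ →+* ZMod q := Int.castRingHom (ZMod q) with hφ
  set a := tS (ZMod q) p κ with ha
  have r1 := MRel_map (ModularCurve.coeffMap φ) h1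
  have r2 := MRel_map (ModularCurve.coeffMap φ) h2
  rw [coeffMap_qExpand, coeffMap_tS, qExpand_tS_eq_pow, mrel_iff] at r1 r2
  set d : ℕ → (ZMod q)[X] := fun i => (c i).map φ with hd
  have hev : ∀ (i : ℕ) (y : LaurentSeries (ZMod q)),
      (c i).eval₂ (Int.castRingHom (LaurentSeries (ZMod q))) y =
      (d i).eval₂ HahnSeries.C y := by
    intro i y
    rw [hd, eval₂_map]
    congr 1
  have hA : ∑ i ∈ Finset.range (q + 2), d i * (X ^ q) ^ i = 0 := by
    apply eq_zero_of_eval₂_tS (p := p) (κ := κ)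
    rw [eval₂_finsetSum]
    rw [← r1]
    refine Finset.sum_congr rfl fun i _ => ?_
    rw [hev, eval₂_mul, eval₂_pow, eval₂_pow, eval₂_X]
  have hB : ∑ i ∈ Finset.range (q + 2), expand (ZMod q) q (d i) * X ^ i = 0 := by
    apply eq_zero_of_eval₂_tS (p := p) (κ := κ)
    rw [eval₂_finsetSum]
    rw [← r2]
    refine Finset.sum_congr rfl fun i _ => ?_
    rw [hev, eval₂_mul, eval₂_pow, eval₂_X, expand_eq_comp_X_pow, eval₂_comp, eval₂_pow, eval₂_X]
  obtain ⟨k0, k1, kq, ki⟩ := kronecker hc.two_le (by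
    rw [hd]
    change (c (q + 1)).map φ = 1
    rw [hc.top, Polynomial.map_one]) hA hB
  have hdvd : ∀ r : ℤ[X], r.map φ = 0 → C (q : ℤ) ∣ r := by
    intro r hr
    rw [Polynomial.C_dvd_iff_dvd_coeff]
    intro i
    rw [← ZMod.intCast_zmod_eq_zero_iff_dvd]
    have := congrArg (fun P : (ZMod q)[X] => P.coeff i) hr
    simpa using this
  exact { hc with
    c0 := hdvd _ (by
      rw [Polynomial.map_sub, Polynomial.map_pow, Polynomial.map_X]
      exact sub_eq_zero.mpr k0)
    c1 := hdvd _ (by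
      rw [Polynomial.map_add, Polynomial.map_X]
      change d 1 + X = 0
      rw [k1, neg_add_cancel])
    cq := hdvd _ (by
      rw [Polynomial.map_add, Polynomial.map_pow, Polynomial.map_X]
      change d q + X ^ q = 0
      rw [kq, neg_add_cancel])
    ci := fun i hi1 hi2 => hdvd _ (ki i hi1 hi2) }

end Fermat.Agent.CB5
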