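import Fermat.Agent.LG.Conc

/-!
The four relations between `t`, `t_q` and their images under the Fricke involution.
-/

set_option autoImplicit false
set_option linter.unusedSectionVars false

open Matrix.SpecialLinearGroup CongruenceSubgroup ModularGroup
open scoped MatrixGroups ModularForm Manifold
open UpperHalfPlane hiding I J
open Complex (I)
open Fermat.Agent.ModFun Fermat.Agent.Geo Fermat.Agent.LG
open Fermat.Agent.ESCore (HauptFn hdelta)
open Fermat.Agent.Eis16 (up dn up_dn dn_up coe_up coe_dn coe_S_smul)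
open ModularCurve (qExpand)

noncomputable section

universe u

namespace Fermat.Agent.CB5

local notation "𝕢" => Function.Periodic.qParam

section Fun

variable {p : ℕ} [Fact p.Prime] {κ : ℤ} (H : HauptFn p κ)

theorem mrel_of_fun {R : Type*} [CommRing R] {φ : R →+* ℂ} (hφ : Function.Injective φ)
    {c : ℕ → Polynomial ℤ} {l : ℕ} {f g : ℍ → ℂ} {F G : LaurentSeries R}
    (hf : HasExp φ (qN 1) f F) (hg : HasExp φ (qN 1) g G)
    (h : ∀ τ, ∑ i ∈ Finset.range (l + 2), (c i).eval₂ (Int.castRingHom ℂ) (g τ) * f τ ^ i = 0) :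
    MRel l c F G := by
  have h7 : HasExp φ (qN 1) (∑ i ∈ Finset.range (l + 2), (fun τ =>
      ((c i).map (Int.castRingHom R)).eval₂ φ (g τ)) * f ^ i)
      (∑ i ∈ Finset.range (l + 2), ((c i).map (Int.castRingHom R)).eval₂ HahnSeries.C G * F ^ i) :=
    HasExp.sum _ fun i _ => (hasExp_eval₂ hg _).mul (hf.pow i)
  have h8 : (∑ i ∈ Finset.range (l + 2), (fun τ =>
      ((c i).map (Int.castRingHom R)).eval₂ φ (g τ)) * f ^ i) = 0 := by
    funext τ
    rw [Finset.sum_apply, Pi.zero_apply, ← h τ]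
    refine Finset.sum_congr rfl fun i _ => ?_
    rw [Pi.mul_apply, Pi.pow_apply, Polynomial.eval₂_map]
    congr 2
    exact RingHom.ext_int _ _
  rw [h8] at h7
  have h9 := h7.unique hφ (isParam_qN 1) hasExp_zero
  rw [MRel, ← h9]
  refine Finset.sum_congr rfl fun i _ => ?_
  rw [aeval_int, Polynomial.eval₂_map]
  congr 2

theorem coe_none {l : ℕ} (hl : l.Prime) (τ : ℍ) :
    ((hdelta l none • τ : ℍ) : ℂ) = l * τ :=
  ModularForm.coe_heckeDiagMatrix_smul hl.ne_zero τ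

theorem coe_zero {l : ℕ} (hl : l.Prime) (τ : ℍ) :
    ((hdelta l (some ⟨0, hl.pos⟩) • τ : ℍ) : ℂ) = τ / l := by
  have h := ModularForm.coe_heckeMatrix_smul hl.ne_zero 0 τ
  rw [Nat.cast_zero, add_zero] at h
  exact h

theorem hdelta_zero_none {l : ℕ} (hl : l.Prime) (τ : ℍ) :
    hdelta l (some ⟨0, hl.pos⟩) • hdelta l none • τ = τ := by
  apply UpperHalfPlane.ext
  rw [coe_zero hl, coe_none hl, mul_div_cancel_left₀]
  exact_mod_cast hl.ne_zero

theorem hdelta_fricke {l : ℕ} (hl : l.Prime) (τ : ℍ) :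
    hdelta l none • (S • up p (hdelta l none • τ)) = S • up p τ := by
  apply UpperHalfPlane.ext
  rw [coe_none hl, coe_S_smul, coe_S_smul, coe_up, coe_up, coe_none hl]
  have h1 : (l : ℂ) ≠ 0 := by exact_mod_cast hl.ne_zero
  have h2 := τ.ne_zero
  have h3 : (p : ℂ) ≠ 0 := NeZero.ne _
  field_simp

/-- the value of `t` at the Fricke transform -/
theorem tI_fricke (τ : ℍ) : tI H (S • up p τ) = (κ : ℂ) ^ 2 * p ^ 4 * H.t τ := by
  rw [tI_S, dn_up]

theorem tI_fricke' {l : ℕ} (hl : l.Prime) (τ : ℍ) :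
    tI H (hdelta l none • (S • up p (hdelta l none • τ))) = (κ : ℂ) ^ 2 * p ^ 4 * H.t τ := by
  rw [hdelta_fricke hl, tI_fricke]

variable {l : ℕ} {c : ℕ → Polynomial ℤ} (hc : ∀ (x : ℂ) (τ : ℍ),
  ∏ k : Option (Fin l), (x - tI H (hdelta l k • τ)) =
    ∑ i ∈ Finset.range (l + 2), (c i).eval₂ (Int.castRingHom ℂ) (tI H τ) * x ^ i)

include hc in
theorem sum_one (τ : ℍ) : ∑ i ∈ Finset.range (l + 2),
    (c i).eval₂ (Int.castRingHom ℂ) (tI H τ) * tI H (hdelta l none • τ) ^ i = 0 := by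
  rw [← hc, Finset.prod_eq_zero (Finset.mem_univ none) (sub_self _)]

include hc in
theorem sum_two (hl : l.Prime) (τ : ℍ) : ∑ i ∈ Finset.range (l + 2),
    (c i).eval₂ (Int.castRingHom ℂ) (tI H (hdelta l none • τ)) * tI H τ ^ i = 0 := by
  rw [← hc, Finset.prod_eq_zero (Finset.mem_univ (some ⟨0, hl.pos⟩))]
  rw [hdelta_zero_none hl, sub_self]

variable {R : Type*} [CommRing R] {φ : R →+* ℂ} (hφ : Function.Injective φ) [NeZero l]

theorem hasExp_none (hl : l.Prime) {f : ℍ → ℂ} {F : LaurentSeries R} (hf : HasExp φ (qN 1) f F) :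
    HasExp φ (qN 1) (fun τ => f (hdelta l none • τ)) (qExpand R l F) := by
  refine hf.qExpand (s' := qN 1) l (fun τ => hdelta l none • τ) fun τ => ?_
  have h1 : 𝕢 1 ((hdelta l none • τ : ℍ) : ℂ) = 𝕢 1 τ ^ l :=
    ESCore.qParam_heckeDiagMatrix hl.ne_zero τ
  rw [qN_apply, qN_apply, Nat.cast_one]
  exact h1

include hc hφ in
theorem mrel_one (hl : l.Prime) : MRel l c (qExpand R l (tS R p κ)) (tS R p κ) :=
  mrel_of_fun hφ (hasExp_none hl (hasExp_tI H φ)) (hasExp_tI H φ) (sum_one H hc)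

include hc hφ in
theorem mrel_two (hl : l.Prime) : MRel l c (tS R p κ) (qExpand R l (tS R p κ)) :=
  mrel_of_fun hφ (hasExp_tI H φ) (hasExp_none hl (hasExp_tI H φ)) (sum_two H hc hl)

end Fun

section Inv

variable {p : ℕ} [Fact p.Prime] {κ : ℤ} (H : HauptFn p κ) {K : Type u} [Field K] (ι : K →+* ℂ)

include H ι in
theorem exists_inv : ∃ T : LaurentSeries K, HasExp ι (qN 1) H.t T ∧ T * tS K p κ = 1 := by
  refine ⟨ModularCurve.coeffMap (Int.castRingHom K) (HahnSeries.ofPowerSeries ℤ ℤ (ESCore.TS p κ)),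
    H.hasExp.coeffMap (ψ := ι) (Int.castRingHom K) (RingHom.ext_int _ _), ?_⟩
  have h1 := (H.hasExp.coeffMap (ψ := ι) (Int.castRingHom K) (RingHom.ext_int _ _)).mul
    (hasExp_tI H ι)
  refine h1.unique ι.injective (isParam_qN 1) ?_
  refine hasExp_one.congr fun τ => ?_
  rw [Pi.one_apply, Pi.mul_apply, tI, mul_inv_cancel₀ (H.ne_zero τ)]

/-- the constant -/
theorem hasExp_const_mul {f : ℍ → ℂ} {F : LaurentSeries K} (hf : HasExp ι (qN 1) f F) :
    HasExp ι (qN 1) (fun τ => (κ : ℂ) ^ 2 * p ^ 4 * f τ)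
      (((κ ^ 2 * (p : ℤ) ^ 4 : ℤ) : LaurentSeries K) * F) := by
  have h1 := (HasExp.const (φ := ι) (s := qN 1) ((κ ^ 2 * (p : ℤ) ^ 4 : ℤ) : K)).mul hf
  rw [map_intCast] at h1
  refine h1.congr fun τ => ?_
  rw [Pi.mul_apply]
  push_cast
  ring

end Inv

/-- **The modular equation with its symmetries.** -/
theorem exists_modrel {p : ℕ} [Fact p.Prime] {κ : ℤ} (H : HauptFn p κ) {q : ℕ} [NeZero q]
    (hq : q.Prime) (hqp : ¬ q ∣ p) : ∃ c, ModShape q c ∧
      MRel q c (qExpand ℤ q (tS ℤ p κ)) (tS ℤ p κ) ∧ MRel q c (tS ℤ p κ) (qExpand ℤ q (tS ℤ p κ)) ∧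
      ∀ {K : Type u} [Field K] (_ : K →+* ℂ),
        MRel q c (qExpand K q (tS K p κ)) (tS K p κ) ∧
        MRel q c (tS K p κ) (qExpand K q (tS K p κ)) ∧
        MRel q c (((κ ^ 2 * (p : ℤ) ^ 4 : ℤ) : LaurentSeries K) / qExpand K q (tS K p κ))
          (((κ ^ 2 * (p : ℤ) ^ 4 : ℤ) : LaurentSeries K) / tS K p κ) ∧
        MRel q c (((κ ^ 2 * (p : ℤ) ^ 4 : ℤ) : LaurentSeries K) / tS K p κ)
          (((κ ^ 2 * (p : ℤ) ^ 4 : ℤ) : LaurentSeries K) / qExpand K q (tS K p κ)) := by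
  obtain ⟨c, h1, h2, h3, h4, h5, h6⟩ := exists_modpoly H hq hqp
  have hZ : Function.Injective (Int.castRingHom ℂ) := (Int.castRingHom ℂ).injective_int
  refine ⟨c, ⟨hq.two_le, h2, h3, h4, h5⟩, mrel_one H h6 hZ hq, mrel_two H h6 hZ hq, ?_⟩
  intro K _ ι
  refine ⟨mrel_one H h6 ι.injective hq, mrel_two H h6 ι.injective hq, ?_⟩
  obtain ⟨T, hT, hT1⟩ := exists_inv H ι
  have hTa : ((κ ^ 2 * (p : ℤ) ^ 4 : ℤ) : LaurentSeries K) / tS K p κ =
      ((κ ^ 2 * (p : ℤ) ^ 4 : ℤ) : LaurentSeries K) * T := by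
    rw [div_eq_mul_inv, inv_eq_of_mul_eq_one_left hT1]
  have hTb : ((κ ^ 2 * (p : ℤ) ^ 4 : ℤ) : LaurentSeries K) / qExpand K q (tS K p κ) =
      ((κ ^ 2 * (p : ℤ) ^ 4 : ℤ) : LaurentSeries K) * qExpand K q T := by
    rw [div_eq_mul_inv, inv_eq_of_mul_eq_one_left (a := qExpand K q T)
      (by rw [← map_mul, hT1, map_one])]
  rw [hTa, hTb]
  have ea := hasExp_const_mul (p := p) (κ := κ) ι hT
  have eb := hasExp_const_mul (p := p) (κ := κ) ι (hasExp_none (l := q) hq hT)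
  constructor
  · refine mrel_of_fun ι.injective eb ea fun τ => ?_
    have h7 := sum_two H h6 hq (S • up p (hdelta q none • τ))
    rw [tI_fricke' H hq, tI_fricke] at h7
    exact h7
  · refine mrel_of_fun ι.injective ea eb fun τ => ?_
    have h7 := sum_one H h6 (S • up p (hdelta q none • τ))
    rw [tI_fricke' H hq, tI_fricke] at h7
    exact h7

end Fermat.Agent.CB5
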